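import Fermat.Agent.GolodCriterion.Fields
import Fermat.Agent.GalCoh.ShaSDual
import Fermat.Agent.GalCoh.EulerSeq
import Fermat.Agent.GalCoh.Support
import Fermat.Agent.GalCoh.LevelS
import Fermat.Agent.ScholzReichardt.Characters
import Fermat.Agent.NoetherProblem.Obstruction
import Mathlib.NumberTheory.Cyclotomic.PrimitiveRoots

/-!
# The cohomology of `ℚ(ζ_p)` outside `p` at a regular prime

For odd `p` not dividing the class number of `ℚ(ζ_p)` the second cohomology of the Galois group
unramified outside `p` with coefficients `ℤ / p` vanishes and the first has order `p ^ ((p + 1) /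
2)`: there is one place over `p`, no class is unramified everywhere, and the rest is the global
duality.
-/

set_option autoImplicit false
set_option linter.unusedSectionVars false

noncomputable section

local notation "Qb" => AlgebraicClosure ℚ

namespace FA.RegularFree

open FA.GalCoh Representation

variable {p : ℕ} [hp : Fact p.Prime]

/-- The prime `p`. -/
abbrev pP (p : ℕ) [hp : Fact p.Prime] : Nat.Primes := ⟨p, hp.out⟩

/-- The set `{p}`. -/
abbrev sP (p : ℕ) [Fact p.Prime] : Finset Nat.Primes := {pP p}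

/-- The Galois group over `ℚ(ζ_p)`. -/
def cycKer (p : ℕ) [Fact p.Prime] : Subgroup GQ := MonoidHom.ker (ExtCitation.cycloChar p)

theorem mem_cycKer {s : GQ} : s ∈ cycKer p ↔ ExtCitation.cycloChar p s = 1 := MonoidHom.mem_ker

instance cycKer_normal : (cycKer p).Normal := MonoidHom.normal_ker _

theorem cycKer_mem_LQ : cycKer p ∈ LQ.carrier := by
  obtain ⟨N, hN, h⟩ := (cycQ p).smooth_chr
  refine mem_LQ_iff_isOpen.2 (Subgroup.isOpen_mono (fun s hs => mem_cycKer.2 (Units.ext ?_))
    (isOpen_of_mem_LQ hN))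
  have h1 := LinearMap.congr_fun (h s hs) (1 : ZMod p)
  change ((cycQ p).χ s : ZMod p) * 1 = 1 at h1
  rw [mul_one] at h1
  exact h1

theorem cycKer_mem_levS : cycKer p ∈ (levS (sP p)).carrier :=
  ⟨cycKer_mem_LQ, fun _ hq _ ht g => cycKer_normal.conj_mem _
    (mem_cycKer.2 (cycloChar_inertL (fun h => hq (Finset.mem_singleton.2 (Subtype.ext h))) ht)) g⟩

theorem cycloChar_eq_of_apply {σ τ : GQ} (h : σ (zetaQ p) = τ (zetaQ p)) :
    ExtCitation.cycloChar p σ = ExtCitation.cycloChar p τ := by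
  have : NeZero p := ⟨hp.out.ne_zero⟩
  rw [apply_zetaQ, apply_zetaQ] at h
  exact Units.ext (ZMod.val_injective p
    ((zetaQ_spec (p := p)).pow_inj (ZMod.val_lt _) (ZMod.val_lt _) h))

/-- The decomposition group at `p` takes every value of the cyclotomic character. -/
theorem exists_cycloChar_loc (g : GQ) :
    ∃ τ : LG p, ExtCitation.cycloChar p (loc p τ) = ExtCitation.cycloChar p g := by
  obtain ⟨ι, -, hι⟩ := Fermat.Agent.ScholzReichardt.exists_inertia_cycMod_eq (p := p) one_pos
    (Fermat.Agent.ScholzReichardt.cycMod p 1 g)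
  have hz : zetaQ p ^ p ^ 1 = 1 := by rw [pow_one]; exact zetaQ_spec.pow_eq_one
  exact ⟨ι, cycloChar_eq_of_apply (by
    rw [FA.NoetherProblem.apply_eq_pow_cycMod _ hz, FA.NoetherProblem.apply_eq_pow_cycMod _ hz,
      hι])⟩

theorem cycloChar_surjective : Function.Surjective (ExtCitation.cycloChar p) := by
  intro u
  have : NeZero p := ⟨hp.out.ne_zero⟩
  have hnd : ¬ p ∣ (u : ZMod p).val := fun hd => by
    rcases Nat.eq_zero_of_dvd_of_lt hd (ZMod.val_lt _) |> (ZMod.val_eq_zero _).1 with h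
    exact u.ne_zero h
  obtain ⟨σ, hσ⟩ := FA.PadicImage.exists_cyclotomic_action_pow (p := p) 1 hnd
  refine ⟨σ, Units.ext (ZMod.val_injective p
    ((zetaQ_spec (p := p)).pow_inj (ZMod.val_lt _) (ZMod.val_lt _) ?_))⟩
  rw [← apply_zetaQ, hσ _ (by rw [pow_one]; exact zetaQ_spec.pow_eq_one)]

variable {X : Type} [Fintype X] [MulAction GQ X] {T : Trans LQ X} [T.H.Normal]

theorem card_eq (hT : T.H = cycKer p) : Fintype.card X = p - 1 := by
  rw [← T.index_eq_card, hT, cycKer, Subgroup.index_ker,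
    MonoidHom.range_eq_top.2 cycloChar_surjective, Subgroup.card_top, Nat.card_eq_fintype_card,
    ZMod.card_units]

/-- The decomposition group at `p` is transitive. -/
theorem exists_loc_smul (hT : T.H = cycKer p) (x : X) : ∃ τ : LG p, loc p τ • T.x0 = x := by
  obtain ⟨τ, hτ⟩ := exists_cycloChar_loc (p := p) (T.t x)
  refine ⟨τ, ?_⟩
  have h : (T.t x)⁻¹ * loc p τ ∈ T.H := by
    rw [hT, mem_cycKer, map_mul, map_inv, hτ, inv_mul_cancel]
  rw [MulAction.mem_stabilizer_iff, mul_smul, inv_smul_eq_iff, T.t_smul] at h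
  exact h

theorem finrank_invariants_loc (hT : T.H = cycKer p) :
    Module.finrank (ZMod p) ↥(Representation.invariants ((T.perm p).comp (loc p))) = 1 := by
  let e : ↥(Representation.invariants ((T.perm p).comp (loc p))) →ₗ[ZMod p] ZMod p :=
    (LinearMap.proj T.x0).comp (Submodule.subtype _)
  have hinj : Function.Injective e := (injective_iff_map_eq_zero _).2 fun f hf =>
    Subtype.ext (funext fun x => by
      obtain ⟨τ, rfl⟩ := exists_loc_smul hT x
      have h := congrFun (f.2 τ) (loc p τ • T.x0)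
      change f.1 ((loc p τ)⁻¹ • loc p τ • T.x0) = f.1 (loc p τ • T.x0) at h
      rw [inv_smul_smul] at h
      exact h.symm.trans hf)
  have hsurj : Function.Surjective e := fun c =>
    ⟨⟨fun _ => c, fun _ => funext fun _ => rfl⟩, rfl⟩
  rw [(LinearEquiv.ofBijective e ⟨hinj, hsurj⟩).finrank_eq, Module.finrank_self]

theorem finrank_invariants_perm :
    Module.finrank (ZMod p) ↥(T.perm p).invariants = 1 := by
  rw [(T.invEquiv (triv T.H p)).finrank_eq]
  have h : (triv T.H p).invariants = ⊤ := eq_top_iff.2 fun v _ g => rfl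
  rw [h, finrank_top, Module.finrank_self]

theorem unrRep_perm (hT : T.H = cycKer p) {q : Nat.Primes} (hq : q ∉ sP p) :
    UnrRep ((T.perm p).comp (loc (q : ℕ))) := fun t ht => LinearMap.ext fun f => funext fun x => by
  have hmem : loc (q : ℕ) t ∈ T.H := by
    rw [hT, mem_cycKer]
    exact cycloChar_inertL (fun h => hq (Finset.mem_singleton.2 (Subtype.ext h))) ht
  show f ((loc (q : ℕ) t)⁻¹ • x) = f x
  rw [T.smul_of_mem (inv_mem hmem)]

theorem permPair_hμ (hT : T.H = cycKer p) : ∀ s ∈ T.H, ExtCitation.cycloChar p s = 1 :=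
  fun _ hs => mem_cycKer.1 (hT ▸ hs)

/-- An unramified character of `ℚ(ζ_p)` of order `p` contradicts regularity. -/
theorem hom_eq_one_of_class (hp2 : p ≠ 2) (F : IntermediateField ℚ Qb) [FiniteDimensional ℚ F]
    [NumberField F] (hh : ¬ p ∣ NumberField.classNumber F) {H : Subgroup GQ}
    (hH : H = F.fixingSubgroup) (f : H →* Multiplicative (ZMod p))
    (hf : Fermat.Agent.GolodCriterion.UnrClass p H f) : f = 1 := by
  subst hH
  by_contra hne
  have hsurj : Function.Surjective f := by
    have : Fact (Nat.card (Multiplicative (ZMod p))).Prime := by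
      rw [Nat.card_congr Multiplicative.toAdd, Nat.card_zmod]; exact hp
    rcases f.range.eq_bot_or_eq_top_of_prime_card with h | h
    · exact absurd (MonoidHom.range_eq_bot_iff.1 h) hne
    · exact MonoidHom.range_eq_top.1 h
  obtain ⟨M, _, _, _, hdeg, hP, -, ⟨hU, hinf⟩, -⟩ :=
    Fermat.Agent.GolodCriterion.exists_field_of_class F hp2 hsurj hf
  rw [Nat.card_congr Multiplicative.toAdd, Nat.card_zmod] at hdeg
  have := hP.isNilpotent
  have := hinf
  obtain ⟨l, hl, hld, hlh⟩ :=
    FA.ClassField94.exists_prime_dvd_classNumber hU (hdeg ▸ hp.out.ne_one)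
  rw [hdeg] at hld
  exact hh ((Nat.prime_dvd_prime_iff_eq hl hp.out).1 hld ▸ hlh)

/-- The field `ℚ(ζ_p)` inside the algebraic closure. -/
theorem fixedField_cycKer :
    IntermediateField.fixedField (cycKer p) = IntermediateField.adjoin ℚ {zetaQ p} := by
  have h : (IntermediateField.adjoin ℚ {zetaQ p}).fixingSubgroup = cycKer p := by
    ext σ
    rw [mem_cycKer]
    constructor
    · intro h
      have h1 := (IntermediateField.mem_fixingSubgroup_iff _ σ).1 h _
        (IntermediateField.mem_adjoin_simple_self ℚ _)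
      rw [← map_one (ExtCitation.cycloChar p)]
      exact cycloChar_eq_of_apply (h1.trans rfl)
    · intro h
      refine (Subgroup.zpowers_le (g := σ)).1 ((IntermediateField.le_iff_le _ _).1 ?_)
      refine IntermediateField.adjoin_le_iff.2 (Set.singleton_subset_iff.2
        ((IntermediateField.mem_fixedField_iff _ _).2 fun g hg => ?_))
      have hle : Subgroup.zpowers σ ≤ MulAction.stabilizer _ (zetaQ p) :=
        Subgroup.zpowers_le.2 (MulAction.mem_stabilizer_iff.2 (by
          have : Fact (1 < p) := ⟨hp.out.one_lt⟩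
          rw [AlgEquiv.smul_def, apply_zetaQ, h, Units.val_one, ZMod.val_one, pow_one]))
      exact MulAction.mem_stabilizer_iff.1 (hle hg)
  have : IsGalois ℚ Qb := FA.EC.isGalois_algebraicClosure
  rw [← h, InfiniteGalois.fixedField_fixingSubgroup]

variable (K : Type) [Field K] [NumberField K] [IsCyclotomicExtension {p} ℚ K]

/-- No class is unramified everywhere and trivial at `p`. -/
theorem shaS1_eq_bot (hp2 : p ≠ 2) (hreg : ¬ p ∣ NumberField.classNumber K)
    (hT : T.H = cycKer p) : shaS1 (sP p) (T.perm p) = ⊥ := by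
  refine eq_bot_iff.2 fun x hx => ?_
  obtain ⟨hunr, hloc⟩ := mem_shaS1.1 hx
  have hall : ∀ q : Nat.Primes,
      resq1 (q : ℕ) (T.perm p) x ∈ Fermat.Agent.GolodCriterion.unrCond p T (q : ℕ) := fun q => by
    by_cases hq : q ∈ sP p
    · rw [hloc ⟨q, hq⟩]
      exact zero_mem _
    · exact Fermat.Agent.GolodCriterion.unrH1_le_unrCond T (q : ℕ) (mem_unrOutside.1 hunr q hq)
  let F : IntermediateField ℚ Qb := IntermediateField.fixedField (cycKer p)
  have : FiniteDimensional ℚ F := finiteDimensional_fixedField cycKer_mem_LQ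
  have : NumberField F := { }
  have hcyc : IsCyclotomicExtension {p} ℚ F := by
    have : NeZero p := ⟨hp.out.ne_zero⟩
    show IsCyclotomicExtension {p} ℚ (IntermediateField.fixedField (cycKer p))
    rw [fixedField_cycKer]
    exact (zetaQ_spec (p := p)).intermediateField_adjoin_isCyclotomicExtension ℚ
  have hh : ¬ p ∣ NumberField.classNumber F := by
    have : NeZero p := ⟨hp.out.ne_zero⟩
    rwa [Fermat.Agent.GolodShafarevich.classNumber_congr
      (IsCyclotomicExtension.algEquiv {p} ℚ F K).toRingEquiv]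
  have h1 := hom_eq_one_of_class hp2 F hh (H := T.H)
    (hT.trans (fixingSubgroup_fixedField_LQ cycKer_mem_LQ).symm) _
    (Fermat.Agent.GolodCriterion.unrClass_homOf T hall)
  refine (Submodule.mem_bot _).2 (Fermat.Agent.GolodCriterion.homOf_injective (p := p) T ?_)
  rw [map_zero]
  exact Subtype.ext (funext fun s => congrArg Multiplicative.toAdd (DFunLike.congr_fun h1 s))

theorem sum_sP (f : Nat.Primes → ℕ) : ∑ q : {q // q ∈ sP p}, f q.1 = f (pP p) := by
  rw [Finset.sum_coe_sort (sP p) f, Finset.sum_singleton]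

/-- The order of the first cohomology. -/
theorem finrank_H1_levS (hp2 : p ≠ 2) (hreg : ¬ p ∣ NumberField.classNumber K)
    (hT : T.H = cycKer p) :
    Module.Finite (ZMod p) (H1 (levS (sP p)) (T.perm p)) ∧
      Module.finrank (ZMod p) (H1 (levS (sP p)) (T.perm p)) = (p + 1) / 2 := by
  let P := T.permPair (permPair_hμ hT)
  have hpS : pP p ∈ sP p := Finset.mem_singleton_self _
  have hunr : ∀ q : Nat.Primes, q ∉ sP p → UnrRep ((T.perm p).comp (loc (q : ℕ))) :=
    fun q hq => unrRep_perm hT hq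
  have hs : Smooth (levS (sP p)) (T.perm p) := smooth_levS T.smooth_perm hunr
  refine ⟨finite_H1S P hp2, ?_⟩
  rw [finrank_H1S hs, selS_top_eq]
  have h1 := finrank_unrOutside_formula P hp2 hpS hunr
  have h2 := sum_finrank_H1 P hp2 hpS hunr
  have h3 := finrank_ker_cc_add P hp2
  have hinv := sum_sP (p := p) fun q =>
    Module.finrank (ZMod p) ↥(Representation.invariants ((T.perm p).comp (loc (q : ℕ))))
  rw [finrank_invariants_loc hT] at hinv
  rw [Module.finrank_fintype_fun_eq_card, card_eq hT] at h2 h3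
  rw [shaS1_eq_bot K hp2 hreg hT, finrank_bot, finrank_invariants_perm, h2] at h1
  simp only [hinv] at h1
  have := hp.out.two_le
  omega

/-- Classes of degree two at these levels, seen at all levels. -/
def infl2 (S : Finset Nat.Primes) {V : Type} [AddCommGroup V] [Module (ZMod p) V]
    (ρ : Representation (ZMod p) GQ V) : H2 (levS S) ρ →ₗ[ZMod p] H2 LQ ρ :=
  map2 (compatS S) (φ := LinearMap.id) fun _ _ => rfl

theorem resq2_infl2 {S : Finset Nat.Primes} {V : Type} [AddCommGroup V] [Module (ZMod p) V]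
    {ρ : Representation (ZMod p) GQ V} (q : ℕ) [Fact q.Prime] (z : H2 (levS S) ρ) :
    resq2 q ρ (infl2 S ρ z) = res2S S q ρ z := by
  obtain ⟨Z, rfl⟩ := mk2_surjective z
  rfl

/-- At a prime outside `S` the classes of degree two at these levels vanish. -/
theorem res2S_eq_zero {S : Finset Nat.Primes} {V : Type} [AddCommGroup V] [Module (ZMod p) V]
    {ρ : Representation (ZMod p) GQ V} (hs : Smooth (levS S) ρ) {q : Nat.Primes} (hq : q ∉ S)
    (z : H2 (levS S) ρ) : res2S S (q : ℕ) ρ z = 0 := by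
  obtain ⟨Z, rfl⟩ := mk2_surjective z
  obtain ⟨N₁, hN₁, hZ⟩ := Z.2.1
  obtain ⟨N, hN, hle, hn⟩ := (levS S).exists_normal hN₁
  set M := N.comap (loc (q : ℕ))
  have hM : M ∈ (LL (q : ℕ)).carrier := by
    obtain ⟨M', ⟨E, hE, hle'⟩, h⟩ := compat_loc (q := (q : ℕ)) _ hN.1
    exact ⟨E, hE, hle'.trans h⟩
  obtain ⟨n, hn0, hnM⟩ := exists_frobL_pow_mem hM
  have : NeZero n := ⟨hn0.ne'⟩
  refine mk2_eq_zero_of_unr (unrRep_of_smoothS hs hq) (hs.comp (compatSL S (q : ℕ))) _ (N := n)
    fun g h g' h' hg hh => ?_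
  have key : ∀ a a' : LG (q : ℕ), frobExp n a = frobExp n a' →
      loc (q : ℕ) (a'⁻¹ * a) ∈ N := by
    intro a a' e
    obtain ⟨R, hR, hR1⟩ := frobExp_lc (q := (q : ℕ)) n
    have hdec : ∀ b : LG (q : ℕ), ∃ x ∈ M, b = frobL (q : ℕ) ^ (frobExp n b).val * x := by
      intro b
      obtain ⟨i, ι, hι, m, hm, rfl⟩ := exists_frobL_decomp ((LL (q : ℕ)).inf_mem hM hR) b
      have hιM : ι ∈ M := by
        have := hN.2 q hq ι hι 1
        rwa [one_mul, inv_one, mul_one] at this
      refine ⟨(frobL (q : ℕ) ^ n) ^ (i / n) * (ι * m),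
        mul_mem (pow_mem hnM _) (mul_mem hιM hm.1), ?_⟩
      rw [hR1 _ m hm.2, frobExp_mul, frobExp_inertL hι, add_zero, frobExp_frobL_pow,
        ZMod.val_natCast, ← pow_mul, ← mul_assoc, ← pow_add, Nat.mod_add_div, mul_assoc]
    obtain ⟨x, hx, hax⟩ := hdec a
    obtain ⟨x', hx', hax'⟩ := hdec a'
    show a'⁻¹ * a ∈ M
    rw [hax, hax', e, mul_inv_rev]
    simpa [mul_assoc] using mul_mem (inv_mem hx') hx
  show Z.1 (loc (q : ℕ) g, loc (q : ℕ) h) = Z.1 (loc (q : ℕ) g', loc (q : ℕ) h')
  rw [← hZ (loc (q : ℕ) g') (loc (q : ℕ) h') _ _ (hle (key g g' hg)) (hle (key h h' hh)),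
    ← map_mul, ← map_mul, mul_inv_cancel_left, mul_inv_cancel_left]

/-- The second cohomology vanishes. -/
theorem subsingleton_H2_levS (hp2 : p ≠ 2)
    (hreg : ¬ p ∣ NumberField.classNumber K) (hT : T.H = cycKer p) :
    Subsingleton (H2 (levS (sP p)) (T.perm p)) := by
  let P := T.permPair (permPair_hμ hT)
  have hpS : pP p ∈ sP p := Finset.mem_singleton_self _
  have hunr : ∀ q : Nat.Primes, q ∉ sP p → UnrRep ((T.perm p).comp (loc (q : ℕ))) :=
    fun q hq => unrRep_perm hT hq
  have hs : Smooth (levS (sP p)) (T.perm p) := smooth_levS T.smooth_perm hunr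
  have hρ : ∀ s ∈ T.H, T.perm p s = 1 := fun s hs' => LinearMap.ext fun f => funext fun x => by
    show f (s⁻¹ • x) = f x
    rw [T.smul_of_mem (inv_mem hs')]
  -- the pairing at the one place is injective
  have hconst : ∀ f : ↥(Representation.invariants ((T.perm p).comp (loc p))), ∀ x : X,
      f.1 x = f.1 T.x0 := fun f x => by
    obtain ⟨τ, rfl⟩ := exists_loc_smul hT x
    have h := congrFun (f.2 τ) (loc p τ • T.x0)
    change f.1 ((loc p τ)⁻¹ • loc p τ • T.x0) = f.1 (loc p τ • T.x0) at h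
    rw [inv_smul_smul] at h
    exact h.symm
  have hres : Function.Surjective (resInv (T.perm p) (p := p) p) := fun f =>
    ⟨⟨f.1, fun g => funext fun x => by
      show f.1 (g⁻¹ • x) = f.1 x
      rw [hconst f, hconst f x]⟩, Subtype.ext rfl⟩
  have hinj : ∀ v : LocH2 (sP p) (T.perm p), Trans.h2Pair (sP p) P v = 0 → ∀ q, v q = 0 := by
    intro v hv q
    obtain ⟨q, hq⟩ := q
    obtain rfl : q = pP p := Finset.mem_singleton.1 hq
    refine (perfectQ p P).bij20.1 (Eq.trans (LinearMap.ext fun f => ?_) (map_zero _).symm)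
    obtain ⟨n, rfl⟩ := hres f
    have h := LinearMap.congr_fun hv n
    rw [Trans.h2Pair_apply, Finset.sum_eq_single ⟨pP p, hq⟩
      (fun b _ hb => absurd (Subtype.ext (Finset.mem_singleton.1 b.2)) hb)
      (fun hb => absurd (Finset.mem_univ _) hb)] at h
    exact h
  have hsha : shaS2 (sP p) (T.perm p) = ⊥ := by
    obtain ⟨h1, -, h3⟩ := finrank_shaS P hp2 hpS hunr
    rw [shaS1_eq_bot K hp2 hreg hT, finrank_bot] at h3
    exact Submodule.finrank_eq_zero.1 h3
  refine ⟨fun a b => sub_eq_zero.1 ((Submodule.eq_bot_iff _).1 hsha _ ?_)⟩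
  refine mem_shaS2.2 fun q => ?_
  set z := a - b
  have hmem : infl2 (sP p) (T.perm p) z ∈ h2S (sP p) (T.perm p) := mem_h2S.2 fun q hq => by
    rw [resq2_infl2, res2S_eq_zero hs hq]
  have h := LinearMap.mem_range_self (Trans.h2Res (sP p) (T.perm p)) ⟨_, hmem⟩
  rw [T.range_h2Res (permPair_hμ hT) P hp2 hρ, LinearMap.mem_ker] at h
  have h0 := hinj _ h q
  rw [Trans.h2Res_apply, resq2_infl2] at h0
  exact h0

/-- **The cohomology outside `p` of `ℚ(ζ_p)` at a regular prime.** -/
theorem cohomology_regular (hp2 : p ≠ 2)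
    (hreg : ¬ p ∣ NumberField.classNumber K) :
    Subsingleton (H2 ((levS (sP p)).sub (cycKer p)) (triv (cycKer p) p)) ∧
      Module.Finite (ZMod p) (H1 ((levS (sP p)).sub (cycKer p)) (triv (cycKer p) p)) ∧
      Nat.card (H1 ((levS (sP p)).sub (cycKer p)) (triv (cycKer p) p)) = p ^ ((p + 1) / 2) := by
  classical
  have := LQ.finiteIndex (cycKer_mem_LQ (p := p))
  have : Fintype (GQ ⧸ cycKer p) := Fintype.ofFinite _
  obtain ⟨T, hT⟩ : ∃ T : Trans LQ (GQ ⧸ cycKer p), T.H = cycKer p :=
    ⟨cosetTrans LQ (cycKer p) cycKer_mem_LQ cycKer_normal le_rfl,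
      Subgroup.ext fun g => mem_cosetTrans_H cycKer_mem_LQ cycKer_normal le_rfl⟩
  have : T.H.Normal := by rw [hT]; exact cycKer_normal
  have hS : T.H ∈ (levS (sP p)).carrier := by rw [hT]; exact cycKer_mem_levS
  let TS := T.toS hS
  have h2 : Subsingleton (H2 (levS (sP p)) (TS.coind (triv TS.H p))) :=
    subsingleton_H2_levS K hp2 hreg hT
  obtain ⟨h1f, h1⟩ := finrank_H1_levS K hp2 hreg hT
  have e1 : H1 (levS (sP p)) (TS.coind (triv TS.H p)) ≃ₗ[ZMod p]
      H1 ((levS (sP p)).sub TS.H) (triv TS.H p) := TS.shEquiv1 _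
  have h2' : Subsingleton (H2 ((levS (sP p)).sub TS.H) (triv TS.H p)) :=
    (TS.shEquiv2 (triv TS.H p)).symm.toEquiv.subsingleton
  have h1f' : Module.Finite (ZMod p) (H1 (levS (sP p)) (TS.coind (triv TS.H p))) := h1f
  have h1' : Module.Finite (ZMod p) (H1 ((levS (sP p)).sub TS.H) (triv TS.H p)) :=
    Module.Finite.equiv e1
  have hc : Nat.card (H1 ((levS (sP p)).sub TS.H) (triv TS.H p)) = p ^ ((p + 1) / 2) := by
    rw [Module.natCard_eq_pow_finrank (K := ZMod p), Nat.card_zmod, ← e1.finrank_eq]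
    exact congrArg (p ^ ·) h1
  have hTS : TS.H = cycKer p := hT
  generalize TS.H = H' at h2' h1' hc hTS
  subst hTS
  exact ⟨h2', h1', hc⟩

end FA.RegularFree

end
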