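import Fermat.Agent.RegularFree.Cohomology
import Fermat.Agent.LocalShafarevich.Free
import Fermat.Agent.ScholzReichardt.NumberFields

/-!
# The Galois group of `ℚ(ζ_p)` unramified outside `p` at a regular prime

The free family is restated with open kernels and inertia groups of valuation rings, and the finite
`p`-groups that occur as Galois groups are read off.
-/

set_option autoImplicit false
set_option linter.unusedSectionVars false

noncomputable section

local notation "Qb" => AlgebraicClosure ℚ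

namespace FA.RegularFree

open FA.GalCoh
open scoped Pointwise

variable {p : ℕ} [hp : Fact p.Prime]

/-- Trivial on the inertia groups at all primes other than `p`. -/
def UnramifiedOutside (p : ℕ) {H : Subgroup GQ} {P : Type*} [Group P] (ρ : H →* P) : Prop :=
  ∀ q : ℕ, q.Prime → q ≠ p → ∀ A : ValuationSubring Qb, A.LiesOverPrime q →
    ∀ σ : H, (σ : GQ) ∈ A.inertiaSubgroupIn ℚ → ρ σ = 1

/-- Constant on the cosets of a level outside `p`: open kernel and unramified outside `p`. -/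
theorem lc_levS_iff {H : Subgroup GQ} (hH : H ∈ (levS (sP p)).carrier) {P : Type*} [Group P]
    (ρ : H →* P) :
    LC₁ ((levS (sP p)).sub H) ρ ↔ IsOpen (ρ.ker : Set H) ∧ UnramifiedOutside p ρ := by
  constructor
  · rintro ⟨_, ⟨N, hN, rfl⟩, hs⟩
    have hone : ∀ σ : H, (σ : GQ) ∈ N → ρ σ = 1 := fun σ hσ => by
      have h := hs 1 σ (Subgroup.mem_subgroupOf.2 hσ)
      rwa [one_mul, map_one] at h
    refine ⟨Subgroup.isOpen_mono (H₁ := N.subgroupOf H)
      (fun σ hσ => MonoidHom.mem_ker.2 (hone σ (Subgroup.mem_subgroupOf.1 hσ)))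
      ((isOpen_of_mem_LQ hN.1).preimage continuous_subtype_val), fun q hq hqp A hA σ hσ => ?_⟩
    have : Fact q.Prime := ⟨hq⟩
    obtain ⟨τ, hτ⟩ := FA.TW.exists_smul_eq_of_liesOver hq (A := A) (B := padicPlace q) hA
      (liesOverPrime_padicPlace q)
    have hin := FA.TW.conj_mem_inertia hq hA hσ τ
    rw [hτ] at hin
    obtain ⟨ι, hι, he⟩ := Fermat.Agent.ScholzReichardt.exists_loc_inert hin
    refine hone σ ?_
    rw [show (σ : GQ) = τ⁻¹ * loc q ι * τ⁻¹⁻¹ by rw [he]; group]
    exact hN.2 ⟨q, hq⟩ (fun h => hqp (congrArg Subtype.val (Finset.mem_singleton.1 h))) ι hι τ⁻¹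
  · rintro ⟨hopen, hunr⟩
    refine ⟨_, ⟨ρ.ker.map H.subtype, ⟨mem_LQ_iff_isOpen.2 ?_, fun q hq t ht g => ?_⟩, rfl⟩,
      fun a s hs => ?_⟩
    · rw [Subgroup.coe_map]
      exact (isOpen_of_mem_LQ hH.1).isOpenMap_subtype_val _ hopen
    · refine ⟨⟨_, hH.2 q hq t ht g⟩, MonoidHom.mem_ker.2 ?_, rfl⟩
      exact hunr q q.2 (fun h => hq (Finset.mem_singleton.2 (Subtype.ext h))) _
        (FA.Density.liesOverPrime_smul (liesOverPrime_padicPlace (q : ℕ)) g) _
        (FA.TW.conj_mem_inertia q.2 (liesOverPrime_padicPlace (q : ℕ)) ht g)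
    · obtain ⟨s', hs', e⟩ := Subgroup.mem_subgroupOf.1 hs
      rw [map_mul, ← Subtype.ext (a1 := s') (a2 := s) e, MonoidHom.mem_ker.1 hs', mul_one]

variable (K : Type) [Field K] [NumberField K] [IsCyclotomicExtension {p} ℚ K]

theorem fixingSubgroup_adjoin_eq {ζ : Qb} (hζ : IsPrimitiveRoot ζ p) :
    (IntermediateField.adjoin ℚ {ζ}).fixingSubgroup = cycKer p := by
  have : NeZero p := ⟨hp.out.ne_zero⟩
  have h : IntermediateField.adjoin ℚ {ζ} = IntermediateField.adjoin ℚ {zetaQ p} := by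
    obtain ⟨i, -, hi⟩ := (zetaQ_spec (p := p)).eq_pow_of_pow_eq_one hζ.pow_eq_one
    obtain ⟨j, -, hj⟩ := hζ.eq_pow_of_pow_eq_one (zetaQ_spec (p := p)).pow_eq_one
    refine le_antisymm ?_ ?_ <;> rw [IntermediateField.adjoin_le_iff, Set.singleton_subset_iff]
    · rw [← hi]; exact pow_mem (IntermediateField.mem_adjoin_simple_self ℚ _) i
    · rw [← hj]; exact pow_mem (IntermediateField.mem_adjoin_simple_self ℚ _) j
  rw [h, ← fixedField_cycKer, fixingSubgroup_fixedField_LQ cycKer_mem_LQ]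

/-- The free family. -/
theorem exists_family (hp2 : p ≠ 2) (hreg : ¬ p ∣ NumberField.classNumber K) :
    Subsingleton (H2 ((levS (sP p)).sub (cycKer p)) (triv (cycKer p) p)) ∧
      ∃ g : Fin ((p + 1) / 2) → cycKer p,
        LocalShafarevich.IsFreeFamily ((levS (sP p)).sub (cycKer p)) p g := by
  obtain ⟨h2, h1, hc⟩ := cohomology_regular K hp2 hreg
  exact ⟨h2, LocalShafarevich.exists_isFreeFamily hc⟩

/-- **Shafarevich's theorem at regular primes.** -/
theorem exists_free_generators (hp2 : p ≠ 2) (hreg : ¬ p ∣ NumberField.classNumber K) {ζ : Qb}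
    (hζ : IsPrimitiveRoot ζ p) :
    ∃ g : Fin ((p + 1) / 2) → (IntermediateField.adjoin ℚ {ζ}).fixingSubgroup,
      ∀ (P : Type*) [Group P] [Finite P], IsPGroup p P → ∀ x : Fin ((p + 1) / 2) → P,
        ∃! ρ : (IntermediateField.adjoin ℚ {ζ}).fixingSubgroup →* P,
          IsOpen (ρ.ker : Set (IntermediateField.adjoin ℚ {ζ}).fixingSubgroup) ∧
            UnramifiedOutside p ρ ∧ ∀ i, ρ (g i) = x i := by
  rw [fixingSubgroup_adjoin_eq hζ]
  obtain ⟨h2, g, hg⟩ := exists_family K hp2 hreg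
  refine ⟨g, fun P _ _ hP x => ?_⟩
  obtain ⟨σ, ⟨hlc, hσ⟩, huniq⟩ := hg.existsUnique_hom hP x
  obtain ⟨ho, hu⟩ := (lc_levS_iff cycKer_mem_levS σ).1 hlc
  exact ⟨σ, ⟨ho, hu, hσ⟩, fun ρ ⟨ho', hu', hρ⟩ =>
    huniq ρ ⟨(lc_levS_iff cycKer_mem_levS ρ).2 ⟨ho', hu'⟩, hρ⟩⟩

/-- The homomorphisms to a finite `p`-group number `|P| ^ ((p + 1) / 2)`. -/
theorem natCard_homs (hp2 : p ≠ 2) (hreg : ¬ p ∣ NumberField.classNumber K) {ζ : Qb}
    (hζ : IsPrimitiveRoot ζ p) (P : Type*) [Group P] [Finite P] (hP : IsPGroup p P) :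
    Nat.card {ρ : (IntermediateField.adjoin ℚ {ζ}).fixingSubgroup →* P //
        IsOpen (ρ.ker : Set (IntermediateField.adjoin ℚ {ζ}).fixingSubgroup) ∧
          UnramifiedOutside p ρ}
      = Nat.card P ^ ((p + 1) / 2) := by
  obtain ⟨g, hg⟩ := exists_free_generators.{_} K hp2 hreg hζ
  rw [Nat.card_congr (Equiv.ofBijective
      (fun ρ : {ρ : (IntermediateField.adjoin ℚ {ζ}).fixingSubgroup →* P //
        IsOpen (ρ.ker : Set (IntermediateField.adjoin ℚ {ζ}).fixingSubgroup) ∧
          UnramifiedOutside p ρ} => fun i => ρ.1 (g i))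
      ⟨fun a b hab => Subtype.ext ((hg P hP _).unique ⟨a.2.1, a.2.2, fun i => rfl⟩
        ⟨b.2.1, b.2.2, fun i => (congrFun hab i).symm⟩), fun x => ?_⟩), Nat.card_fun, Nat.card_fin]
  obtain ⟨ρ, ⟨ho, hu, hρ⟩, -⟩ := hg P hP x
  exact ⟨⟨ρ, ho, hu⟩, funext hρ⟩

/-- Open kernels over `F` are the homomorphisms constant on cosets of a level. -/
theorem lc_comp_fixingEquiv_iff (F : IntermediateField ℚ Qb) [FiniteDimensional ℚ F] {P : Type*}
    [Group P] (ρ : (Qb ≃ₐ[F] Qb) →* P) :
    IsOpen ((ρ.comp (IntermediateField.fixingSubgroupEquiv F).toMonoidHom).ker :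
        Set F.fixingSubgroup) ↔ IsOpen (ρ.ker : Set (Qb ≃ₐ[F] Qb)) := by
  set e := IntermediateField.fixingSubgroupEquiv F
  constructor
  · intro h
    have hmap : IsOpen (((ρ.comp e.toMonoidHom).ker.map F.fixingSubgroup.subtype : Subgroup GQ) :
        Set GQ) := by
      rw [Subgroup.coe_map]
      exact F.fixingSubgroup_isOpen.isOpenMap_subtype_val _ h
    obtain ⟨L, hL, hle⟩ := (krullTopology_mem_nhds_one_iff _ _ _).1 (hmap.mem_nhds (one_mem _))
    let E' : IntermediateField F Qb :=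
      IntermediateField.extendScalars (le_sup_left : F ≤ F ⊔ L)
    have : FiniteDimensional ℚ E' :=
      (inferInstance : FiniteDimensional ℚ (F ⊔ L : IntermediateField ℚ Qb))
    have : FiniteDimensional F E' := Module.Finite.of_restrictScalars_finite ℚ F E'
    refine Subgroup.isOpen_mono (fun σ hσ => MonoidHom.mem_ker.2 ?_)
      (IntermediateField.fixingSubgroup_isOpen E')
    obtain ⟨s, rfl⟩ := e.surjective σ
    obtain ⟨s', hs', he⟩ := hle ((IntermediateField.mem_fixingSubgroup_iff L (s : GQ)).2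
      fun x hx => (IntermediateField.mem_fixingSubgroup_iff E' _).1 hσ x
        ((le_sup_right : L ≤ F ⊔ L) hx))
    rw [← Subtype.ext (a1 := s') (a2 := s) he]
    exact MonoidHom.mem_ker.1 hs'
  · intro h
    obtain ⟨E', hE', hle⟩ :=
      (krullTopology_mem_nhds_one_iff _ _ _).1 (h.mem_nhds ρ.ker.one_mem)
    have : FiniteDimensional ℚ E' := Module.Finite.trans F E'
    have : FiniteDimensional ℚ (E'.restrictScalars ℚ) := this
    refine Subgroup.isOpen_mono
      (H₁ := (E'.restrictScalars ℚ).fixingSubgroup.subgroupOf F.fixingSubgroup) (fun s hs => ?_)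
      ((IntermediateField.fixingSubgroup_isOpen (E'.restrictScalars ℚ)).preimage
        continuous_subtype_val)
    exact MonoidHom.mem_ker.2 (MonoidHom.mem_ker.1
      (hle ((IntermediateField.mem_fixingSubgroup_iff E' _).2 fun x hx =>
        (IntermediateField.mem_fixingSubgroup_iff _ _).1 (Subgroup.mem_subgroupOf.1 hs) x hx)))

/-- A finite `p`-group is a Galois group over `ℚ(ζ_p)` unramified outside `p` iff `(p + 1) / 2`
elements generate it. -/
theorem galois_over_iff (hp2 : p ≠ 2) (hreg : ¬ p ∣ NumberField.classNumber K) {ζ : Qb}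
    (hζ : IsPrimitiveRoot ζ p) (P : Type*) [Group P] [Finite P] (hP : IsPGroup p P) :
    (∃ M : IntermediateField (IntermediateField.adjoin ℚ {ζ}) Qb,
      FiniteDimensional (IntermediateField.adjoin ℚ {ζ}) M ∧
      IsGalois (IntermediateField.adjoin ℚ {ζ}) M ∧
      Nonempty ((M ≃ₐ[IntermediateField.adjoin ℚ {ζ}] M) ≃* P) ∧
      ∀ q : ℕ, q.Prime → q ≠ p → ∀ A : ValuationSubring Qb, A.LiesOverPrime q →
        ∀ σ : (IntermediateField.adjoin ℚ {ζ}).fixingSubgroup,
          (σ : GQ) ∈ A.inertiaSubgroupIn ℚ → ∀ x ∈ M, (σ : GQ) x = x) ↔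
      ∃ x : Fin ((p + 1) / 2) → P, Subgroup.closure (Set.range x) = ⊤ := by
  set F := IntermediateField.adjoin ℚ ({ζ} : Set Qb) with hF
  have : FiniteDimensional ℚ F :=
    IntermediateField.adjoin.finiteDimensional (Algebra.IsIntegral.isIntegral ζ)
  have : IsGalois F Qb := IsGalois.tower_top_of_isGalois ℚ F Qb
  have hmem : F.fixingSubgroup ∈ (levS (sP p)).carrier := by
    rw [fixingSubgroup_adjoin_eq hζ]
    exact cycKer_mem_levS
  obtain ⟨h2, g, hg⟩ : Subsingleton (H2 ((levS (sP p)).sub F.fixingSubgroup)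
      (triv F.fixingSubgroup p)) ∧ ∃ g : Fin ((p + 1) / 2) → F.fixingSubgroup,
        LocalShafarevich.IsFreeFamily ((levS (sP p)).sub F.fixingSubgroup) p g := by
    rw [fixingSubgroup_adjoin_eq hζ]
    exact exists_family K hp2 hreg
  rw [← hg.exists_surjective_iff hP]
  set e := IntermediateField.fixingSubgroupEquiv F
  constructor
  · rintro ⟨M, hM, hgal, ⟨i⟩, hunr⟩
    let ρ : (Qb ≃ₐ[F] Qb) →* P := i.toMonoidHom.comp (AlgEquiv.restrictNormalHom M)
    have hker : ∀ σ, ρ σ = 1 ↔ ∀ x ∈ M, σ x = x := fun σ => by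
      simp only [ρ, MonoidHom.comp_apply, MulEquiv.coe_toMonoidHom, map_eq_one_iff i i.injective]
      refine ⟨fun h x hx => ?_, fun h => AlgEquiv.ext fun x => Subtype.ext
        ((AlgEquiv.restrictNormal_commutes σ M x).trans (h x x.2))⟩
      have h2 := AlgEquiv.restrictNormal_commutes σ M ⟨x, hx⟩
      rw [show σ.restrictNormal M = 1 from h] at h2
      exact h2.symm
    have hopen : IsOpen (ρ.ker : Set (Qb ≃ₐ[F] Qb)) :=
      Subgroup.isOpen_mono (H₁ := M.fixingSubgroup) (fun σ hσ => MonoidHom.mem_ker.2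
        ((hker σ).2 ((IntermediateField.mem_fixingSubgroup_iff M σ).1 hσ)))
        (IntermediateField.fixingSubgroup_isOpen M)
    refine ⟨ρ.comp e.toMonoidHom, (lc_levS_iff hmem _).2 ⟨(lc_comp_fixingEquiv_iff F ρ).2 hopen,
      fun q hq hqp A hA σ hσ => (hker _).2 fun x hx => hunr q hq hqp A hA σ hσ x hx⟩, ?_⟩
    exact (i.surjective.comp (AlgEquiv.restrictNormalHom_surjective (F := F) (K₁ := M) Qb)).comp
      e.surjective
  · rintro ⟨σ, hlc, hσ⟩
    obtain ⟨ho, hu⟩ := (lc_levS_iff hmem σ).1 hlc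
    have hcomp : (σ.comp e.symm.toMonoidHom).comp e.toMonoidHom = σ :=
      MonoidHom.ext fun s => congrArg σ (e.symm_apply_apply s)
    have hopen := (lc_comp_fixingEquiv_iff F (σ.comp e.symm.toMonoidHom)).1
      (by rw [hcomp]; exact ho)
    let H : ClosedSubgroup (Qb ≃ₐ[F] Qb) :=
      ⟨(σ.comp e.symm.toMonoidHom).ker, Subgroup.isClosed_of_isOpen _ hopen⟩
    have : H.Normal := (σ.comp e.symm.toMonoidHom).normal_ker
    obtain ⟨hfin, hgal⟩ :=
      (InfiniteGalois.isOpen_and_normal_iff_finite_and_isGalois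
        (IntermediateField.fixedField H.1)).mp (by
          rw [InfiniteGalois.fixingSubgroup_fixedField H]
          exact ⟨hopen, MonoidHom.normal_ker _⟩)
    refine ⟨IntermediateField.fixedField H.1, hfin, hgal,
      ⟨(InfiniteGalois.normalAutEquivQuotient H).symm.trans
        (QuotientGroup.quotientKerEquivOfSurjective _ (hσ.comp e.symm.surjective))⟩,
      fun q hq hqp A hA s hs x hx => ?_⟩
    refine (IntermediateField.mem_fixedField_iff _ _).1 hx (e s) (MonoidHom.mem_ker.2 ?_)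
    show σ (e.symm (e s)) = 1
    rw [e.symm_apply_apply]
    exact hu q hq hqp A hA s hs

end FA.RegularFree

end
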